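import Fermat.Agent.S13.FreyTorsion

/-!
# S12 / Height / Size : the discriminant of the Frey curve is much larger than `c₄³`

`Δ = (abc)^{2p}/2⁸`, `c₄ = a^{2p} + a^p b^p + b^{2p}`.  With `t = |ab|^p ≥ 2^p ≥ 2048`: `|c₄| ≤ 3t²`, `|Δ| ≥ t²/256 ≥ 8t`.
-/

set_option autoImplicit false

namespace Fermat.Agent.S12.Height

open Fermat.Agent.S13

/-- `p⁶ ≤ 4^p` for `p ≥ 11`. -/
private theorem Size_pow_six_le {p : ℕ} (hp : 11 ≤ p) : p ^ 6 ≤ 4 ^ p := by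
  induction p, hp using Nat.le_induction with
  | base => norm_num
  | succ n hn ih =>
    have h1 : 2 * (n + 1) ^ 2 ≤ 3 * n ^ 2 := by nlinarith
    have h2 : (2 * (n + 1) ^ 2) ^ 3 ≤ (3 * n ^ 2) ^ 3 := Nat.pow_le_pow_left h1 3
    have h3 : (2 * (n + 1) ^ 2) ^ 3 = 8 * (n + 1) ^ 6 := by ring
    have h4 : (3 * n ^ 2) ^ 3 = 27 * n ^ 6 := by ring
    rw [h3, h4] at h2
    rw [pow_succ 4 n]
    omega

/-- LEAF E1 (pure real inequality, ~60 lines).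
`p⁶ ≤ 4^p` for `p ≥ 11` (induction, `((p+1)/p)⁶ ≤ 4`).  `D^p ≥ (8t)^p = 8^p t^p ≥ 8^p · 2048 · t⁶` (`t ≥ 1`, `p ≥ 7`), and
`40 p⁶ C³ ≤ 1080 · 4^p t⁶`;  `D^p = D · D^(p-1) ≥ D · 16384^(p-1)`, and `40 · 1728 p⁶ D ≤ 69120 · 4^p D`.
Each of the two terms is `< D^p / 2`. -/
theorem size_ineq {p : ℕ} (hp : 11 ≤ p) {t D C : ℝ} (ht : 2048 ≤ t) (hD : 8 * t ≤ D) (hC0 : 0 ≤ C)
    (hC : C ≤ 3 * t ^ 2) : 40 * (p : ℝ) ^ 6 * (C ^ 3 + 1728 * D) < D ^ p := by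
  have ht0 : (0 : ℝ) < t := by linarith
  have ht1 : (1 : ℝ) ≤ t := by linarith
  have hD0 : (0 : ℝ) < D := by linarith
  have hq : (p : ℝ) ^ 6 ≤ (4 : ℝ) ^ p := by exact_mod_cast Size_pow_six_le hp
  have hq0 : (0 : ℝ) < (4 : ℝ) ^ p := by positivity
  have hC3 : C ^ 3 ≤ 27 * t ^ 6 := by
    have h1 : C ^ 3 ≤ (3 * t ^ 2) ^ 3 := pow_le_pow_left₀ hC0 hC 3
    have h2 : (3 * t ^ 2) ^ 3 = 27 * t ^ 6 := by ring
    rwa [h2] at h1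
  -- Claim A
  have hA : 4194304 * ((4 : ℝ) ^ p * t ^ 6) ≤ D ^ p := by
    have h1 : (8 * t) ^ p ≤ D ^ p := pow_le_pow_left₀ (by positivity) hD p
    have h2 : (8 * t) ^ p = (2 : ℝ) ^ p * (4 : ℝ) ^ p * t ^ p := by
      have h8 : (8 : ℝ) = 2 * 4 := by norm_num
      rw [h8, mul_pow, mul_pow]
    have h3 : (2 : ℝ) ^ 11 ≤ (2 : ℝ) ^ p := pow_le_pow_right₀ (by norm_num) hp
    have h4 : t ^ 7 ≤ t ^ p := pow_le_pow_right₀ ht1 (by omega)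
    have h5 : 2048 * t ^ 6 ≤ t ^ 7 := by
      have h6 : t ^ 7 = t * t ^ 6 := by ring
      rw [h6]
      exact mul_le_mul_of_nonneg_right ht (by positivity)
    have h7 : 2048 * t ^ 6 ≤ t ^ p := h5.trans h4
    have h8 : (2048 : ℝ) ≤ (2 : ℝ) ^ p := by
      have : (2 : ℝ) ^ 11 = 2048 := by norm_num
      linarith
    have h9 : 2048 * (4 : ℝ) ^ p * (2048 * t ^ 6) ≤ (2 : ℝ) ^ p * (4 : ℝ) ^ p * t ^ p := by
      apply mul_le_mul _ h7 (by positivity) (by positivity)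
      exact mul_le_mul_of_nonneg_right h8 hq0.le
    calc 4194304 * ((4 : ℝ) ^ p * t ^ 6) = 2048 * (4 : ℝ) ^ p * (2048 * t ^ 6) := by ring
      _ ≤ (2 : ℝ) ^ p * (4 : ℝ) ^ p * t ^ p := h9
      _ = (8 * t) ^ p := h2.symm
      _ ≤ D ^ p := h1
  -- Claim B
  have hB : 1048576 * (D * (4 : ℝ) ^ p) ≤ D ^ p := by
    obtain ⟨n, rfl⟩ : ∃ n, p = n + 1 := ⟨p - 1, by omega⟩
    have h1 : ((4 : ℝ) ^ 7) ^ n ≤ D ^ n := by
      apply pow_le_pow_left₀ (by positivity)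
      have : (4 : ℝ) ^ 7 = 16384 := by norm_num
      linarith
    have h2 : (4 : ℝ) ^ (n + 1 + 10) ≤ ((4 : ℝ) ^ 7) ^ n := by
      rw [← pow_mul]
      exact pow_le_pow_right₀ (by norm_num) (by omega)
    have h3 : (4 : ℝ) ^ (n + 1 + 10) = 1048576 * (4 : ℝ) ^ (n + 1) := by
      rw [pow_add (4 : ℝ) (n + 1) 10]
      norm_num
      ring
    have h4 : 1048576 * (4 : ℝ) ^ (n + 1) ≤ D ^ n := by
      rw [← h3]
      exact h2.trans h1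
    calc 1048576 * (D * (4 : ℝ) ^ (n + 1)) = (1048576 * (4 : ℝ) ^ (n + 1)) * D := by ring
      _ ≤ D ^ n * D := mul_le_mul_of_nonneg_right h4 hD0.le
      _ = D ^ (n + 1) := (pow_succ D n).symm
  have h1 : 40 * (p : ℝ) ^ 6 * (C ^ 3 + 1728 * D) ≤ 40 * (4 : ℝ) ^ p * (27 * t ^ 6 + 1728 * D) := by
    apply mul_le_mul _ _ (by positivity) (by positivity)
    · linarith
    · linarith
  have hqt : 0 < (4 : ℝ) ^ p * t ^ 6 := by positivity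
  have hqD : 0 < D * (4 : ℝ) ^ p := by positivity
  have h2 : 40 * (4 : ℝ) ^ p * (27 * t ^ 6 + 1728 * D)
      = 1080 * ((4 : ℝ) ^ p * t ^ 6) + 69120 * (D * (4 : ℝ) ^ p) := by ring
  rw [h2] at h1
  linarith

/-- LEAF E2. `c₄` of the Frey curve (unfold `FreyPackage.freyCurve`, `WeierstrassCurve.c₄, b₂, b₄`; `ring`; see `S13.frey_Δ`). -/
theorem frey_c₄ (P : FreyPackage) :
    P.freyCurve.c₄ = ((P.a : ℚ) ^ P.p) ^ 2 + (P.a : ℚ) ^ P.p * (P.b : ℚ) ^ P.p + ((P.b : ℚ) ^ P.p) ^ 2 := by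
  simp only [FreyPackage.freyCurve, WeierstrassCurve.c₄, WeierstrassCurve.b₂, WeierstrassCurve.b₄]
  ring

/-- LEAF E3 (~80 lines).  `hW` gives `(W.Δ : ℚ) = P.freyCurve.Δ`, `(W.c₄ : ℚ) = P.freyCurve.c₄` (`WeierstrassCurve.map_Δ`, `map_c₄`,
`eq_intCast`), then `S13.frey_Δ`, `frey_c₄`.  Put `t = |a b|^p` (real).  `|b| ≥ 2` (`P.hb2`, `P.hb0`), `|a|, |c| ≥ 1`, so
`t ≥ 2^p ≥ 2^11`; `|Δ| = t² |c|^{2p}/256 ≥ t²/256 ≥ 8t`; `|c₄| ≤ x² + xy + y² ≤ 3 (xy)²` for `x = |a|^p, y = |b|^p ≥ 1`.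
Conclude by `size_ineq`. -/
theorem frey_size (P : FreyPackage) (hp : 11 ≤ P.p) (W : WeierstrassCurve ℤ)
    (hW : W.map (Int.castRingHom ℚ) = P.freyCurve) :
    40 * (P.p : ℝ) ^ 6 * (|(W.c₄ : ℝ)| ^ 3 + 1728 * |(W.Δ : ℝ)|) < |(W.Δ : ℝ)| ^ P.p := by
  -- the invariants
  have hΔQ : (W.Δ : ℚ) = ((P.a : ℚ) ^ P.p * (P.b : ℚ) ^ P.p * (P.c : ℚ) ^ P.p) ^ 2 / 256 := by
    rw [← frey_Δ, ← hW, WeierstrassCurve.map_Δ, eq_intCast]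
  have hcQ : (W.c₄ : ℚ) =
      ((P.a : ℚ) ^ P.p) ^ 2 + (P.a : ℚ) ^ P.p * (P.b : ℚ) ^ P.p + ((P.b : ℚ) ^ P.p) ^ 2 := by
    rw [← frey_c₄, ← hW, WeierstrassCurve.map_c₄, eq_intCast]
  obtain ⟨A, hA⟩ : ∃ A : ℝ, A = (P.a : ℝ) ^ P.p := ⟨_, rfl⟩
  obtain ⟨B, hB⟩ : ∃ B : ℝ, B = (P.b : ℝ) ^ P.p := ⟨_, rfl⟩
  obtain ⟨Z, hZ⟩ : ∃ Z : ℝ, Z = (P.c : ℝ) ^ P.p := ⟨_, rfl⟩
  have hΔ : (W.Δ : ℝ) = (A * B * Z) ^ 2 / 256 := by
    have := congrArg (fun r : ℚ => (r : ℝ)) hΔQ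
    push_cast at this
    rw [hA, hB, hZ]
    exact this
  have hc : (W.c₄ : ℝ) = A ^ 2 + A * B + B ^ 2 := by
    have := congrArg (fun r : ℚ => (r : ℝ)) hcQ
    push_cast at this
    rw [hA, hB]
    exact this
  -- sizes
  have ha1 : (1 : ℝ) ≤ |(P.a : ℝ)| := by exact_mod_cast Int.one_le_abs P.ha0
  have hc1 : (1 : ℝ) ≤ |(P.c : ℝ)| := by exact_mod_cast Int.one_le_abs P.hc0
  have hb2 : (2 : ℝ) ≤ |(P.b : ℝ)| := by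
    have h1 : (2 : ℤ) ∣ P.b := (ZMod.intCast_zmod_eq_zero_iff_dvd P.b 2).1 P.hb2
    have h2 : (2 : ℤ) ≤ |P.b| := Int.le_of_dvd (abs_pos.2 P.hb0) ((dvd_abs 2 P.b).2 h1)
    exact_mod_cast h2
  have hx : 1 ≤ |A| := by rw [hA, abs_pow]; exact one_le_pow₀ ha1
  have hz : 1 ≤ |Z| := by rw [hZ, abs_pow]; exact one_le_pow₀ hc1
  have hy : 2048 ≤ |B| := by
    rw [hB, abs_pow]
    calc (2048 : ℝ) = 2 ^ 11 := by norm_num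
      _ ≤ 2 ^ P.p := pow_le_pow_right₀ (by norm_num) hp
      _ ≤ |(P.b : ℝ)| ^ P.p := pow_le_pow_left₀ (by norm_num) hb2 _
  have ht : 2048 ≤ |A| * |B| := by nlinarith
  have hDeq : |(W.Δ : ℝ)| = (|A| * |B|) ^ 2 * |Z| ^ 2 / 256 := by
    rw [hΔ, abs_of_nonneg (by positivity), mul_pow, mul_pow, mul_pow, sq_abs, sq_abs, sq_abs]
  have hz2 : 1 ≤ |Z| ^ 2 := one_le_pow₀ hz
  have hD : 8 * (|A| * |B|) ≤ |(W.Δ : ℝ)| := by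
    rw [hDeq]
    have h1 : (|A| * |B|) ^ 2 ≤ (|A| * |B|) ^ 2 * |Z| ^ 2 :=
      le_mul_of_one_le_right (by positivity) hz2
    nlinarith
  have hC : |(W.c₄ : ℝ)| ≤ 3 * (|A| * |B|) ^ 2 := by
    rw [hc]
    have h1 : |A ^ 2 + A * B + B ^ 2| ≤ |A| ^ 2 + |A| * |B| + |B| ^ 2 := by
      calc |A ^ 2 + A * B + B ^ 2| ≤ |A ^ 2 + A * B| + |B ^ 2| := abs_add_le _ _
        _ ≤ |A ^ 2| + |A * B| + |B ^ 2| := by gcongr; exact abs_add_le _ _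
        _ = |A| ^ 2 + |A| * |B| + |B| ^ 2 := by rw [abs_pow, abs_pow, abs_mul]
    have hy1 : 1 ≤ |B| := by linarith
    have h2 : |A| ^ 2 ≤ (|A| * |B|) ^ 2 := by
      rw [mul_pow]; exact le_mul_of_one_le_right (by positivity) (one_le_pow₀ hy1)
    have h3 : |B| ^ 2 ≤ (|A| * |B|) ^ 2 := by
      rw [mul_pow]; exact le_mul_of_one_le_left (by positivity) (one_le_pow₀ hx)
    have h4 : |A| * |B| ≤ (|A| * |B|) ^ 2 := by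
      have : 1 ≤ |A| * |B| := by linarith
      nlinarith
    linarith
  exact size_ineq hp ht hD (abs_nonneg _) hC

end Fermat.Agent.S12.Height
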