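import Fermat.Agent.S12.Height.Ineq
import Fermat.Agent.S12.Height.Size

/-!
# S12 / Height / Main : OUTPUT OF THE BLOCK

`height_contra` : an integral model `W` of the Frey curve (`p ≥ 11`) has no Galois stable line `⟨Q⟩ ⊆ E[p]` such that
`ψ₂(T) ∉ 𝔪_A` for all `T ∈ ⟨Q⟩ \ 0` and all valuation rings `A` of `ℚ̄` over all primes.
-/

set_option autoImplicit false

namespace Fermat.Agent.S12.Height

open Fermat.Agent.S58 Fermat.Agent.S15.M1

theorem height_contra (P : FreyPackage) (hp : 11 ≤ P.p) (W : WeierstrassCurve ℤ)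
    (hW : W.map (Int.castRingHom ℚ) = P.freyCurve) (Q : EP W) (hQ : addOrderOf Q = P.p)
    (hst : ∀ σ : GQ, σ • Q ∈ AddSubgroup.zmultiples Q)
    (hstar : ∀ ℓ : ℕ, ℓ.Prime → ∀ A : ValuationSubring Qb, A.LiesOverPrime ℓ →
      1 ≤ A.valuation (Loc.psiProd Q P.p)) : False := by
  have : NeZero P.p := ⟨P.hp0⟩
  have hΔ : W.Δ ≠ 0 := by
    intro h0
    have h1 : (W.map (Int.castRingHom ℚ)).Δ = 0 := by rw [WeierstrassCurve.map_Δ, h0, map_zero]
    rw [hW] at h1
    exact Fermat.Agent.S13.frey_Δ_ne_zero P h1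
  exact absurd (height_main P.pp P.hp_odd W hΔ Q hQ hst hstar) (not_le.mpr (frey_size P hp W hW))

end Fermat.Agent.S12.Height
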