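import Fermat.Agent.S12.Contracts
import Fermat.Agent.S12.Height.Main

/-!
# S12 / Height / Out : the contract `S12.HeightOut`
-/

set_option autoImplicit false

namespace Fermat.Agent.S12.Height

open Fermat.Agent.S58 Fermat.Agent.S15.M1

theorem four_dvd_frey (P : FreyPackage) : (4 : ℤ) ∣ P.b ^ P.p - 1 - P.a ^ P.p := by
  have hb : (2 : ℤ) ∣ P.b := (ZMod.intCast_zmod_eq_zero_iff_dvd P.b 2).1 P.hb2
  have hp := P.hp5
  have hb4 : (4 : ℤ) ∣ P.b ^ P.p := by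
    have h1 : (2 : ℤ) ^ 2 ∣ P.b ^ 2 := pow_dvd_pow_of_dvd hb 2
    exact (by norm_num : (4 : ℤ) = 2 ^ 2) ▸ h1.trans (pow_dvd_pow _ (by omega))
  have ha : ((P.a ^ P.p : ℤ) : ZMod 4) = 3 := by
    obtain ⟨k, hk⟩ := P.hp_odd
    push_cast
    rw [P.ha4, hk, pow_succ, pow_mul]
    have : (3 : ZMod 4) ^ 2 = 1 := by decide
    rw [this, one_pow, one_mul]
  have h2 : (4 : ℤ) ∣ 1 + P.a ^ P.p := by
    refine (ZMod.intCast_zmod_eq_zero_iff_dvd (1 + P.a ^ P.p) 4).1 ?_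
    rw [Int.cast_add, ha]
    decide
  have : P.b ^ P.p - 1 - P.a ^ P.p = P.b ^ P.p - (1 + P.a ^ P.p) := by ring
  rw [this]
  exact dvd_sub hb4 h2

theorem sixteen_dvd_frey (P : FreyPackage) : (16 : ℤ) ∣ -(P.a ^ P.p) * (P.b ^ P.p) := by
  have hb : (2 : ℤ) ∣ P.b := (ZMod.intCast_zmod_eq_zero_iff_dvd P.b 2).1 P.hb2
  have hp := P.hp5
  have hb4 : (16 : ℤ) ∣ P.b ^ P.p := by
    have h1 : (2 : ℤ) ^ 4 ∣ P.b ^ 4 := pow_dvd_pow_of_dvd hb 4
    exact (by norm_num : (16 : ℤ) = 2 ^ 4) ▸ h1.trans (pow_dvd_pow _ (by omega))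
  exact Dvd.dvd.mul_left hb4 _

theorem freyCurveInt_map' (P : FreyPackage) :
    P.freyCurveInt.map (Int.castRingHom ℚ) = P.freyCurve := by
  obtain ⟨u, hu⟩ := four_dvd_frey P
  obtain ⟨v, hv⟩ := sixteen_dvd_frey P
  have hu' : ((P.b : ℚ) ^ P.p - 1 - (P.a : ℚ) ^ P.p) = 4 * u := by exact_mod_cast hu
  have hv' : (-((P.a : ℚ) ^ P.p) * ((P.b : ℚ) ^ P.p)) = 16 * v := by exact_mod_cast hv
  ext
  · simp [FreyPackage.freyCurveInt, FreyPackage.freyCurve]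
  · simp only [FreyPackage.freyCurveInt, FreyPackage.freyCurve, WeierstrassCurve.map_a₂]
    rw [hu, hu']
    simp
  · simp [FreyPackage.freyCurveInt, FreyPackage.freyCurve]
  · simp only [FreyPackage.freyCurveInt, FreyPackage.freyCurve, WeierstrassCurve.map_a₄]
    rw [hv, hv']
    simp
  · simp [FreyPackage.freyCurveInt, FreyPackage.freyCurve]

theorem heightOut : Fermat.Agent.S12.HeightOut := fun P hp Q hQ hst hstar =>
  height_contra P (by omega) P.freyCurveInt (freyCurveInt_map' P) Q hQ hst hstar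

end Fermat.Agent.S12.Height
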