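import Fermat.Agent.S13.ValRat
import Fermat.Agent.S13.Minkowski
import Fermat.Agent.S58.Contracts

/-!
# S12 / Height / Arith : the product formula, in the only form we need

A nonzero Galois-fixed element `x` of `ℚ̄` with `1 ≤ v_A(x)` (multiplicative notation: `x⁻¹ ∈ A`) for every valuation ring `A`
over every prime is the inverse of an integer; so its archimedean absolute value is `≤ 1`.
-/

set_option autoImplicit false

namespace Fermat.Agent.S12.Height

open Fermat.Agent.S05 Fermat.Agent.S13 Fermat.Agent.S58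

/-- LEAF C1.  `r ≠ 0` rational, `1 ≤ v_A(r)` for all `A` over all primes  ⟹  `r.num = ± 1`, i.e. `|r| ≤ 1`.
PROOF. Suppose a prime `ℓ ∣ r.num` (`Int.natAbs`, `Nat.exists_prime_and_dvd` if `r.num.natAbs ≠ 1`).  Take `A` over `ℓ`
(`S13.exists_liesOverPrime_Qbar`), `hv : A.valuation (ℓ : Qb) < 1` (`A.mem_nonunits_iff.mp hA`, see `S13.frey_no_rat`).
`ValRat.algebraMap_rat_eq`: `r = num / den`; `v(num) < 1` (`num = ℓ * k`, `v k ≤ 1` integers are in `A`),
`v(den) = 1` (`S05.valInt_eq_one`, `ℓ ∤ den` by coprimality `r.reduced`).  So `v(r) < 1`: contradiction.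
Hence `r.num.natAbs = 1` and `|r| = 1 / den ≤ 1`. -/
theorem abs_le_one_of_forall_val {r : ℚ} (hr : r ≠ 0)
    (hval : ∀ ℓ : ℕ, ℓ.Prime → ∀ A : ValuationSubring Qb, A.LiesOverPrime ℓ →
      1 ≤ A.valuation (algebraMap ℚ Qb r)) : |r| ≤ 1 := by
  have hnum : r.num.natAbs = 1 := by
    by_contra hne
    obtain ⟨ℓ, hℓ, hdvd⟩ := Nat.exists_prime_and_dvd hne
    obtain ⟨A, hA⟩ := S13.exists_liesOverPrime_Qbar hℓ
    have hv : A.valuation (ℓ : Qb) < 1 := A.mem_nonunits_iff.mp hA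
    have hdvd' : (ℓ : ℤ) ∣ r.num := Int.natCast_dvd.mpr hdvd
    obtain ⟨k, hk⟩ := hdvd'
    have hkA : A.valuation ((k : ℤ) : Qb) ≤ 1 := by
      rw [A.valuation_le_one_iff]
      exact intCast_mem A k
    have hnumv : A.valuation ((r.num : ℤ) : Qb) < 1 := by
      rw [hk]
      push_cast
      rw [map_mul]
      exact mul_lt_one_of_lt_of_le hv hkA
    have hden : ¬ (ℓ : ℤ) ∣ (r.den : ℤ) := by
      intro h
      have h1 : ℓ ∣ r.den := by exact_mod_cast h
      have h2 := Nat.dvd_gcd hdvd h1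
      rw [r.reduced.gcd_eq_one] at h2
      exact hℓ.one_lt.ne' (Nat.dvd_one.mp h2)
    have hdenv : A.valuation (((r.den : ℕ) : ℤ) : Qb) = 1 := valInt_eq_one A.valuation hℓ hv hden
    have h3 := hval ℓ hℓ A hA
    rw [ValRat.algebraMap_rat_eq, map_div₀] at h3
    have h4 : A.valuation ((r.den : ℕ) : Qb) = 1 := by
      have := hdenv
      push_cast at this
      exact this
    rw [h4, div_one] at h3
    exact absurd hnumv (not_lt.mpr h3)
  have h1 : |r| = (r.num.natAbs : ℚ) / (r.den : ℚ) := by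
    conv_lhs => rw [← Rat.num_div_den r]
    rw [abs_div, Nat.abs_cast, ← Int.cast_abs, Int.abs_eq_natAbs, Int.cast_natCast]
  rw [h1, hnum, Nat.cast_one, div_le_one (by exact_mod_cast r.den_pos)]
  exact_mod_cast r.den_pos

theorem Arith_isGalois (inst : Algebra ℚ (AlgebraicClosure ℚ)) :
    @IsGalois ℚ _ (AlgebraicClosure ℚ) _ inst := by
  have h : inst = AlgebraicClosure.instAlgebra ℚ := Subsingleton.elim _ _
  rw [h]
  infer_instance

/-- LEAF C2.  (`InfiniteGalois.mem_range_algebraMap_iff_fixed`, see the end of `S13.frey_no_rat`; `ι.commutes r`;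
`‖((r : ℚ) : ℂ)‖ = |r|`: `Complex.norm_ratCast` or `norm_cast`.) -/
theorem norm_le_one_of_forall_val {x : Qb} (hx : x ≠ 0) (hfix : ∀ σ : GQ, σ x = x)
    (hval : ∀ ℓ : ℕ, ℓ.Prime → ∀ A : ValuationSubring Qb, A.LiesOverPrime ℓ → 1 ≤ A.valuation x)
    (ι : Qb →ₐ[ℚ] ℂ) : ‖ι x‖ ≤ 1 := by
  have : IsGalois ℚ Qb := Arith_isGalois _
  obtain ⟨r, hr⟩ := (InfiniteGalois.mem_range_algebraMap_iff_fixed (k := ℚ) x).mpr hfix
  subst hr
  have hr0 : r ≠ 0 := by
    rintro rfl
    exact hx (map_zero _)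
  have h1 := abs_le_one_of_forall_val hr0 hval
  rw [ι.commutes r]
  have h2 : ‖algebraMap ℚ ℂ r‖ = ((|r| : ℚ) : ℝ) := by
    rw [eq_ratCast, Complex.norm_ratCast, Rat.cast_abs]
  rw [h2]
  exact_mod_cast h1

end Fermat.Agent.S12.Height
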