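import Fermat.Agent.S12.Height.Phi
import Fermat.Agent.S12.Height.Arith
import Fermat.Agent.S15.M1.Unif.ANQ
import Fermat.Agent.S15.M1.Loc.Stable
import Fermat.Agent.S15.M1.Loc.Transport

/-!
# S12 / Height / Ineq : the height inequality

`W / ℤ`, `Q ∈ W(ℚ̄)` of odd prime order `N`, `Π = ∏_{k=1}^{N-1} ψ₂(kQ)`.
* `height_ineq` : `|Δ_W|^N ≤ 40 N⁶ ‖ι Π‖⁴ (|c₄|³ + 1728 |Δ_W|)`   (analysis: `AN_Qb` + THEOREM H);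
* `height_main` : if `⟨Q⟩` is Galois stable and `ψ₂` of its points is never in a maximal ideal, then
  `|Δ_W|^N ≤ 40 N⁶ (|c₄|³ + 1728 |Δ_W|)`.
-/

set_option autoImplicit false

open ModularForm Complex
open UpperHalfPlane hiding I

namespace Fermat.Agent.S12.Height

open Fermat.Agent.S58 Fermat.Agent.S15.M1 Fermat.Agent.S24 Fermat.Agent.S24.JLocal

local notation "Δ" => ModularForm.discriminant

/-- LEAF D1 (algebra with norms, ~50 lines).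
`AN_Qb` gives `τ₀` with `j Δ_W = c₄³` and `Δ(τ₀) Δ_W^(N-1) = N¹² (ι Π)⁴ Δ(Nτ₀)`.  So `‖j‖ = |c₄|³/|Δ_W|`,
`‖Δ(τ₀)/Δ(Nτ₀)‖ = N¹² ‖ιΠ‖⁴ / |Δ_W|^(N-1)`; plug in `disc_ratio_ge N τ₀` and clear denominators
(`|Δ_W| > 0`, `N > 0`, `N = (N - 1) + 1`). -/
theorem height_ineq {N : ℕ} [NeZero N] (hN : N.Prime) (hodd : Odd N) (W : WeierstrassCurve ℤ)
    (hΔ : W.Δ ≠ 0) (Q : EP W) (hQ : addOrderOf Q = N) (ι : Qb →ₐ[ℚ] ℂ) :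
    |(W.Δ : ℝ)| ^ N ≤
      40 * (N : ℝ) ^ 6 * ‖ι (Loc.psiProd Q N)‖ ^ 4 * (|(W.c₄ : ℝ)| ^ 3 + 1728 * |(W.Δ : ℝ)|) := by
  obtain ⟨τ₀, hj, hd⟩ := Unif.AN_Qb hN hodd W hΔ Q hQ ι
  have hH := disc_ratio_ge N τ₀
  have hn : (0 : ℝ) < (N : ℝ) := by exact_mod_cast hN.pos
  have hD : 0 < |(W.Δ : ℝ)| := abs_pos.2 (by exact_mod_cast hΔ)
  have hd' : 0 < ‖Δ (mulH N τ₀)‖ := norm_pos_iff.mpr (discriminant_ne_zero _)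
  have e1 : ‖kleinJ τ₀‖ * |(W.Δ : ℝ)| = |(W.c₄ : ℝ)| ^ 3 := by
    have := congrArg norm hj
    rwa [norm_mul, norm_pow, Complex.norm_intCast, Complex.norm_intCast] at this
  have e2 : ‖Δ τ₀‖ * |(W.Δ : ℝ)| ^ (N - 1) =
      (N : ℝ) ^ 12 * ‖ι (Loc.psiProd Q N)‖ ^ 4 * ‖Δ (mulH N τ₀)‖ := by
    have := congrArg norm hd
    rwa [norm_mul, norm_mul, norm_mul, norm_pow, norm_pow, norm_pow, Complex.norm_intCast,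
      Complex.norm_natCast] at this
  have e3 : ‖Δ τ₀ / Δ (mulH N τ₀)‖ * |(W.Δ : ℝ)| ^ (N - 1) =
      (N : ℝ) ^ 12 * ‖ι (Loc.psiProd Q N)‖ ^ 4 := by
    rw [norm_div, div_mul_eq_mul_div, e2, mul_div_assoc, div_self hd'.ne', mul_one]
  have e4 : |(W.Δ : ℝ)| ^ N = |(W.Δ : ℝ)| ^ (N - 1) * |(W.Δ : ℝ)| := by
    rw [← pow_succ, Nat.sub_add_cancel hN.pos]
  generalize ‖Δ τ₀ / Δ (mulH N τ₀)‖ = ρ at hH e3
  generalize ‖kleinJ τ₀‖ = J at hH e1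
  generalize ‖ι (Loc.psiProd Q N)‖ = P at e3 ⊢
  generalize |(W.c₄ : ℝ)| = c at e1 ⊢
  rw [e4]
  have hD1n : 0 ≤ |(W.Δ : ℝ)| ^ (N - 1) := by positivity
  generalize |(W.Δ : ℝ)| ^ (N - 1) = D1 at e3 hD1n ⊢
  generalize |(W.Δ : ℝ)| = D at hD e1 ⊢
  generalize (N : ℝ) = n at hn hH e3 ⊢
  have h1 : n ^ 6 / 40 * (D1 * D) ≤ ρ * (J + 1728) * (D1 * D) :=
    mul_le_mul_of_nonneg_right hH (mul_nonneg hD1n hD.le)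
  have h2 : ρ * (J + 1728) * (D1 * D) = n ^ 12 * P ^ 4 * (c ^ 3 + 1728 * D) := by
    rw [← e3, ← e1]; ring
  rw [h2] at h1
  have hn6 : 0 < n ^ 6 := by positivity
  have h3 : n ^ 6 * (D1 * D) ≤ n ^ 6 * (40 * n ^ 6 * P ^ 4 * (c ^ 3 + 1728 * D)) := by
    nlinarith
  exact le_of_mul_le_mul_left h3 hn6

/-- **The height inequality for a Galois stable line whose `ψ₂`-values are nowhere in a maximal ideal.** -/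
theorem height_main {N : ℕ} [NeZero N] (hN : N.Prime) (hodd : Odd N) (W : WeierstrassCurve ℤ)
    (hΔ : W.Δ ≠ 0) (Q : EP W) (hQ : addOrderOf Q = N)
    (hst : ∀ σ : GQ, σ • Q ∈ AddSubgroup.zmultiples Q)
    (hstar : ∀ ℓ : ℕ, ℓ.Prime → ∀ A : ValuationSubring Qb, A.LiesOverPrime ℓ →
      1 ≤ A.valuation (Loc.psiProd Q N)) :
    |(W.Δ : ℝ)| ^ N ≤ 40 * (N : ℝ) ^ 6 * (|(W.c₄ : ℝ)| ^ 3 + 1728 * |(W.Δ : ℝ)|) := by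
  have h1 := height_ineq hN hodd W hΔ Q hQ Loc.iotaA
  have h2 : ‖Loc.iotaA (Loc.psiProd Q N)‖ ≤ 1 :=
    norm_le_one_of_forall_val (Loc.psiProd_ne_zero hodd hQ)
      (fun σ => Loc.psiProd_fixed' hN.pos hQ σ (hst σ)) hstar Loc.iotaA
  have h3 : ‖Loc.iotaA (Loc.psiProd Q N)‖ ^ 4 ≤ 1 := pow_le_one₀ (norm_nonneg _) h2
  have h4 : (0 : ℝ) ≤ 40 * (N : ℝ) ^ 6 := by positivity
  have h5 : (0 : ℝ) ≤ |(W.c₄ : ℝ)| ^ 3 + 1728 * |(W.Δ : ℝ)| := by positivity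
  calc |(W.Δ : ℝ)| ^ N ≤ 40 * (N : ℝ) ^ 6 * ‖Loc.iotaA (Loc.psiProd Q N)‖ ^ 4 *
        (|(W.c₄ : ℝ)| ^ 3 + 1728 * |(W.Δ : ℝ)|) := h1
    _ ≤ 40 * (N : ℝ) ^ 6 * 1 * (|(W.c₄ : ℝ)| ^ 3 + 1728 * |(W.Δ : ℝ)|) := by gcongr
    _ = _ := by ring

end Fermat.Agent.S12.Height
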