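import Fermat.Agent.S12.Height.Series
import Fermat.Agent.S24.Psi

/-!
# S12 / Height / Phi : THEOREM H

`φ(τ) = ‖Δ(τ)‖ (Im τ)⁶` is `SL(2,ℤ)`-invariant, `φ ≤ 1` and `φ(τ) (‖j(τ)‖ + 1728) ≥ 1/40` on `ℍ`.
Hence `‖Δ(τ)/Δ(Nτ)‖ (‖j(τ)‖ + 1728) ≥ N⁶/40`.
-/

set_option autoImplicit false

open ModularForm EisensteinSeries Complex
open UpperHalfPlane hiding I
open scoped Real MatrixGroups Modular

namespace Fermat.Agent.S12.Height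

open Fermat.Agent.S24 Fermat.Agent.S24.JLocal

noncomputable section

local notation "Δ" => ModularForm.discriminant

/-- `φ(τ) = ‖Δ(τ)‖ (Im τ)⁶`. -/
def phi (τ : ℍ) : ℝ := ‖Δ τ‖ * τ.im ^ 6

theorem phi_pos (τ : ℍ) : 0 < phi τ :=
  mul_pos (norm_pos_iff.mpr (discriminant_ne_zero τ)) (pow_pos τ.im_pos 6)

/-- LEAF B1. invariance.  (As in `S24.JLocal.kleinJ_smul`: `Δ(γτ) = (cτ+d)¹² Δ(τ)`; `UpperHalfPlane.im_smul_eq_div_normSq`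
/ `ModularGroup.im_smul_eq_div_normSq`: `Im(γτ) = Im τ / ‖cτ+d‖²`.  Or `SlashInvariantFormClass.norm_petersson_smul`
for `CuspForm.discriminant`: `‖petersson 12 Δ Δ τ‖ = φ(τ)²`.) -/
theorem phi_smul (γ : SL(2, ℤ)) (τ : ℍ) : phi (γ • τ) = phi τ := by
  have hγ : (γ : GL (Fin 2) ℝ) ∈ 𝒮ℒ := ⟨γ, rfl⟩
  have h12 : (Δ ∣[(12 : ℤ)] γ) τ = Δ τ := by
    have := SlashInvariantFormClass.slash_action_eq CuspForm.discriminant _ hγ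
    rw [SL_slash]
    exact congrFun this τ
  rw [slash_action_eq'_iff] at h12
  have him := ModularGroup.im_smul_eq_div_normSq γ τ
  have hd : denom (γ : GL (Fin 2) ℝ) τ = (γ 1 0 : ℂ) * τ + (γ 1 1 : ℂ) := by
    simp [denom]
  have hd0 : ‖denom (γ : GL (Fin 2) ℝ) τ‖ ≠ 0 :=
    norm_ne_zero_iff.mpr (denom_ne_zero (γ : GL (Fin 2) ℝ) τ)
  rw [phi, phi, h12, him, ← hd, Complex.normSq_eq_norm_sq, norm_mul]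
  have e : ‖denom (γ : GL (Fin 2) ℝ) τ ^ (12 : ℤ)‖ = ‖denom (γ : GL (Fin 2) ℝ) τ‖ ^ 12 := by
    rw [norm_zpow]
    norm_cast
  rw [e]
  field_simp

/-- LEAF B2. on the fundamental domain `‖q‖ ≤ 1/200`.
(`ModularGroup.three_le_four_mul_im_sq_of_mem_fd`: `3 ≤ 4 y²`, so `y ≥ 0.866`, `2πy ≥ 5.44` (`Real.pi_gt_d4`);
`exp 5.44 = (exp 1)⁵ exp 0.44 ≥ 2.718⁵ · 1.44 ≥ 200` (`Real.exp_one_gt_d9`, `Real.add_one_le_exp`).) -/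
theorem rr_le_of_mem_fd {τ : ℍ} (h : τ ∈ 𝒟) : rr τ ≤ 1 / 200 := by
  have h1 := ModularGroup.three_le_four_mul_im_sq_of_mem_fd h
  have hy := τ.im_pos
  have hy1 : (0.866 : ℝ) ≤ τ.im := by
    by_contra hcon
    push Not at hcon
    nlinarith
  have hpi := Real.pi_gt_d4
  have h2 : (5.44 : ℝ) ≤ 2 * π * τ.im := by nlinarith
  have h3 : (200 : ℝ) ≤ Real.exp (2 * π * τ.im) := by
    have e1 : Real.exp (5.44 : ℝ) = Real.exp 1 ^ 5 * Real.exp 0.44 := by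
      rw [← Real.exp_nat_mul, ← Real.exp_add]
      norm_num
    have e2 := Real.exp_one_gt_d9
    have e3 : (1.44 : ℝ) ≤ Real.exp 0.44 := by
      have e := Real.add_one_le_exp (0.44 : ℝ)
      norm_num at e ⊢
      linarith
    have e4 : (2.718 : ℝ) ^ 5 ≤ Real.exp 1 ^ 5 :=
      pow_le_pow_left₀ (by norm_num) (by linarith) 5
    calc (200 : ℝ) ≤ 2.718 ^ 5 * 1.44 := by norm_num
      _ ≤ Real.exp 1 ^ 5 * Real.exp 0.44 := mul_le_mul e4 e3 (by norm_num) (by positivity)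
      _ = Real.exp 5.44 := e1.symm
      _ ≤ _ := Real.exp_le_exp.2 h2
  rw [rr, Real.exp_neg, one_div]
  exact inv_anti₀ (by norm_num) h3

/-- LEAF B3. `‖Δ‖ ≤ 10 r` when `r ≤ 1/200`.
(`discriminant_eq_E₄_cube_sub_E₆_sq`; with `a = E₄ - 1`, `b = E₆ - 1`: `1728 Δ = 3a + 3a² + a³ - 2b - b²`,
`‖a‖ ≤ 480 r ≤ 2.4`, `‖b‖ ≤ 1008 r ≤ 5.04`: `‖1728 Δ‖ ≤ 15.96 ‖a‖ + 7.04 ‖b‖ ≤ 14757 r`.) -/
theorem norm_disc_le (τ : ℍ) (h : rr τ ≤ 1 / 200) : ‖Δ τ‖ ≤ 10 * rr τ := by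
  have h0 := rr_pos τ
  have ha := norm_E4_sub_one_le τ h
  have hb := norm_E6_sub_one_le τ h
  set a := E₄ τ - 1 with hadef
  set b := E₆ τ - 1 with hbdef
  have e : Δ τ = (3 * a + 3 * a ^ 2 + a ^ 3 - 2 * b - b ^ 2) / 1728 := by
    rw [discriminant_eq_E₄_cube_sub_E₆_sq, hadef, hbdef]
    ring
  have hn : ‖3 * a + 3 * a ^ 2 + a ^ 3 - 2 * b - b ^ 2‖
      ≤ 3 * ‖a‖ + 3 * ‖a‖ ^ 2 + ‖a‖ ^ 3 + 2 * ‖b‖ + ‖b‖ ^ 2 := by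
    calc ‖3 * a + 3 * a ^ 2 + a ^ 3 - 2 * b - b ^ 2‖
        ≤ ‖3 * a + 3 * a ^ 2 + a ^ 3 - 2 * b‖ + ‖b ^ 2‖ := norm_sub_le _ _
      _ ≤ ‖3 * a + 3 * a ^ 2 + a ^ 3‖ + ‖2 * b‖ + ‖b ^ 2‖ := by gcongr; exact norm_sub_le _ _
      _ ≤ ‖3 * a + 3 * a ^ 2‖ + ‖a ^ 3‖ + ‖2 * b‖ + ‖b ^ 2‖ := by gcongr; exact norm_add_le _ _
      _ ≤ ‖3 * a‖ + ‖3 * a ^ 2‖ + ‖a ^ 3‖ + ‖2 * b‖ + ‖b ^ 2‖ := by gcongr; exact norm_add_le _ _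
      _ = 3 * ‖a‖ + 3 * ‖a‖ ^ 2 + ‖a‖ ^ 3 + 2 * ‖b‖ + ‖b‖ ^ 2 := by
        simp only [norm_mul, norm_pow]
        norm_num
  have hA0 : 0 ≤ ‖a‖ := norm_nonneg a
  have hB0 : 0 ≤ ‖b‖ := norm_nonneg b
  have hA1 : ‖a‖ ≤ 12 / 5 := by linarith
  have hB1 : ‖b‖ ≤ 126 / 25 := by linarith
  have hA2 : ‖a‖ ^ 2 ≤ 12 / 5 * ‖a‖ := by nlinarith
  have hA3 : ‖a‖ ^ 3 ≤ (12 / 5) ^ 2 * ‖a‖ := by
    have : ‖a‖ ^ 3 = ‖a‖ ^ 2 * ‖a‖ := by ring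
    nlinarith
  have hB2 : ‖b‖ ^ 2 ≤ 126 / 25 * ‖b‖ := by nlinarith
  rw [e, norm_div]
  have h1728 : ‖(1728 : ℂ)‖ = 1728 := by simp
  rw [h1728, div_le_iff₀ (by norm_num)]
  nlinarith

/-- LEAF B4. `y⁶ exp(-2πy) ≤ 1/10` for `y > 0`  (`Real.pow_div_factorial_le_exp (2πy) _ 6`, `2π ≥ 6`, `720 · 10 ≤ 6⁶`). -/
theorem pow_six_mul_rr_le (τ : ℍ) : τ.im ^ 6 * rr τ ≤ 1 / 10 := by
  have hy := τ.im_pos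
  have hpi := Real.pi_gt_three
  have h := Real.pow_div_factorial_le_exp (x := 2 * π * τ.im) (by positivity) 6
  have h6 : ((6 : ℕ).factorial : ℝ) = 720 := by norm_num [Nat.factorial]
  rw [h6] at h
  have h1 : (6 * τ.im) ^ 6 ≤ (2 * π * τ.im) ^ 6 :=
    pow_le_pow_left₀ (by positivity) (by nlinarith) 6
  have h2 : 10 * τ.im ^ 6 ≤ Real.exp (2 * π * τ.im) := by
    have h3 : (6 * τ.im) ^ 6 = 46656 * τ.im ^ 6 := by ring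
    have h4 : 0 < τ.im ^ 6 := pow_pos hy 6
    rw [h3] at h1
    linarith
  rw [rr, Real.exp_neg, ← div_eq_mul_inv, div_le_iff₀ (Real.exp_pos _)]
  linarith

/-- `φ ≤ 1` on the fundamental domain. -/
theorem phi_le_one_of_mem_fd {τ : ℍ} (h : τ ∈ 𝒟) : phi τ ≤ 1 := by
  have h1 := norm_disc_le τ (rr_le_of_mem_fd h)
  have h2 := pow_six_mul_rr_le τ
  have h3 : 0 < τ.im ^ 6 := pow_pos τ.im_pos 6
  unfold phi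
  nlinarith

/-- **`φ ≤ 1`.** -/
theorem phi_le_one (τ : ℍ) : phi τ ≤ 1 := by
  obtain ⟨γ, hγ⟩ := ModularGroup.exists_smul_mem_fd τ
  rw [← phi_smul γ τ]
  exact phi_le_one_of_mem_fd hγ

/-- LEAF B5. lower bound of `‖Δ‖` on the fundamental domain.
(`norm_lin_ge`: `13 ≤ 21 ‖E₄‖ + 10 ‖E₆‖`.  If `‖E₄‖ ≥ 2/5`: `‖Δ‖ ‖j‖ = ‖E₄‖³ ≥ 8/125` (`kleinJ`).  Otherwise `‖E₆‖ ≥ 0.46`
and `‖Δ‖ ‖j - 1728‖ = ‖E₆‖² ≥ 0.2` (`kleinJ_sub_1728`), `‖j - 1728‖ ≤ ‖j‖ + 1728`.) -/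
theorem norm_disc_mul_ge (τ : ℍ) (h : rr τ ≤ 1 / 200) :
    8 / 125 ≤ ‖Δ τ‖ * (‖kleinJ τ‖ + 1728) := by
  have hlin := norm_lin_ge τ h
  have hΔ : 0 < ‖Δ τ‖ := norm_pos_iff.mpr (discriminant_ne_zero τ)
  have h21 : ‖(21 : ℂ)‖ = 21 := by simp
  have h10 : ‖(10 : ℂ)‖ = 10 := by simp
  have h1728 : ‖(1728 : ℂ)‖ = 1728 := by simp
  have h1 : ‖21 * E₄ τ + 10 * E₆ τ‖ ≤ 21 * ‖E₄ τ‖ + 10 * ‖E₆ τ‖ := by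
    refine (norm_add_le _ _).trans ?_
    rw [norm_mul, norm_mul, h21, h10]
  have hj : ‖Δ τ‖ * ‖kleinJ τ‖ = ‖E₄ τ‖ ^ 3 := by
    rw [kleinJ, norm_div, norm_pow, mul_div_cancel₀ _ hΔ.ne']
  have hj' : ‖Δ τ‖ * ‖kleinJ τ - 1728‖ = ‖E₆ τ‖ ^ 2 := by
    rw [kleinJ_sub_1728, norm_div, norm_pow, mul_div_cancel₀ _ hΔ.ne']
  have hj'' : ‖kleinJ τ - 1728‖ ≤ ‖kleinJ τ‖ + 1728 := by
    refine (norm_sub_le _ _).trans ?_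
    rw [h1728]
  by_cases hE : 2 / 5 ≤ ‖E₄ τ‖
  · have h3 : (2 / 5 : ℝ) ^ 3 ≤ ‖E₄ τ‖ ^ 3 := pow_le_pow_left₀ (by norm_num) hE 3
    have h4 : ‖Δ τ‖ * (‖kleinJ τ‖ + 1728) = ‖E₄ τ‖ ^ 3 + ‖Δ τ‖ * 1728 := by rw [mul_add, hj]
    rw [h4]
    have h5 : (2 / 5 : ℝ) ^ 3 = 8 / 125 := by norm_num
    nlinarith
  · rw [not_le] at hE
    have h6 : (46 / 100 : ℝ) ≤ ‖E₆ τ‖ := by linarith
    have h7 : (46 / 100 : ℝ) ^ 2 ≤ ‖E₆ τ‖ ^ 2 := pow_le_pow_left₀ (by norm_num) h6 2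
    have h8 : ‖Δ τ‖ * ‖kleinJ τ - 1728‖ ≤ ‖Δ τ‖ * (‖kleinJ τ‖ + 1728) :=
      mul_le_mul_of_nonneg_left hj'' hΔ.le
    rw [hj'] at h8
    have h9 : (8 / 125 : ℝ) ≤ (46 / 100 : ℝ) ^ 2 := by norm_num
    linarith

/-- `φ (‖j‖ + 1728) ≥ 1/40` on the fundamental domain. -/
theorem phi_mul_ge_of_mem_fd {τ : ℍ} (h : τ ∈ 𝒟) : 1 / 40 ≤ phi τ * (‖kleinJ τ‖ + 1728) := by
  have h1 := norm_disc_mul_ge τ (rr_le_of_mem_fd h)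
  have h2 := ModularGroup.three_le_four_mul_im_sq_of_mem_fd h
  have h3 : (27 : ℝ) / 64 ≤ τ.im ^ 6 := by
    have e : τ.im ^ 6 = (τ.im ^ 2) ^ 3 := by ring
    rw [e]
    have h4 : (3 : ℝ) / 4 ≤ τ.im ^ 2 := by linarith
    calc (27 : ℝ) / 64 = (3 / 4) ^ 3 := by norm_num
      _ ≤ (τ.im ^ 2) ^ 3 := pow_le_pow_left₀ (by norm_num) h4 3
  unfold phi
  have h5 : 0 ≤ ‖Δ τ‖ * (‖kleinJ τ‖ + 1728) := by positivity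
  calc (1 : ℝ) / 40 ≤ 8 / 125 * (27 / 64) := by norm_num
    _ ≤ (‖Δ τ‖ * (‖kleinJ τ‖ + 1728)) * τ.im ^ 6 := mul_le_mul h1 h3 (by norm_num) h5
    _ = ‖Δ τ‖ * τ.im ^ 6 * (‖kleinJ τ‖ + 1728) := by ring

/-- **`φ (‖j‖ + 1728) ≥ 1/40`.** -/
theorem phi_mul_ge (τ : ℍ) : 1 / 40 ≤ phi τ * (‖kleinJ τ‖ + 1728) := by
  obtain ⟨γ, hγ⟩ := ModularGroup.exists_smul_mem_fd τ
  rw [← phi_smul γ τ, ← kleinJ_smul γ τ]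
  exact phi_mul_ge_of_mem_fd hγ

theorem im_mulH (N : ℕ) [NeZero N] (τ : ℍ) : (mulH N τ).im = N * τ.im := by
  change ((mulH N τ : ℍ) : ℂ).im = _
  rw [coe_mulH]
  simp

/-- **THEOREM H.** -/
theorem disc_ratio_ge (N : ℕ) [NeZero N] (τ : ℍ) :
    (N : ℝ) ^ 6 / 40 ≤ ‖Δ τ / Δ (mulH N τ)‖ * (‖kleinJ τ‖ + 1728) := by
  have h1 := phi_mul_ge τ
  have h2 := phi_le_one (mulH N τ)
  have hN : (0 : ℝ) < N := by exact_mod_cast Nat.pos_of_ne_zero (NeZero.ne N)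
  have hy := τ.im_pos
  have hd : 0 < ‖Δ (mulH N τ)‖ := norm_pos_iff.mpr (discriminant_ne_zero _)
  unfold phi at h1 h2
  rw [im_mulH, mul_pow] at h2
  rw [norm_div, div_mul_eq_mul_div, le_div_iff₀ hd]
  have hy6 : 0 < τ.im ^ 6 := pow_pos hy 6
  have hN6 : 0 < (N : ℝ) ^ 6 := pow_pos hN 6
  -- `‖Δ(Nτ)‖ N⁶ y⁶ ≤ 1` and `1/40 ≤ ‖Δτ‖ y⁶ (‖j‖+1728)`
  have key : (N : ℝ) ^ 6 / 40 * ‖Δ (mulH N τ)‖ * τ.im ^ 6 ≤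
      ‖Δ τ‖ * (‖kleinJ τ‖ + 1728) * τ.im ^ 6 := by
    calc (N : ℝ) ^ 6 / 40 * ‖Δ (mulH N τ)‖ * τ.im ^ 6
        = 1 / 40 * (‖Δ (mulH N τ)‖ * ((N : ℝ) ^ 6 * τ.im ^ 6)) := by ring
      _ ≤ 1 / 40 * 1 := by gcongr
      _ ≤ ‖Δ τ‖ * τ.im ^ 6 * (‖kleinJ τ‖ + 1728) := by linarith
      _ = ‖Δ τ‖ * (‖kleinJ τ‖ + 1728) * τ.im ^ 6 := by ring
  exact le_of_mul_le_mul_right key hy6

end

end Fermat.Agent.S12.Height
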