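import Mathlib

/-!
# S12 / Height / Series : explicit bounds for `E₄`, `E₆` when `‖q‖ ≤ 1/200`  (pure Mathlib)

`q = exp(2πiτ)`, `r = ‖q‖ = exp(-2π Im τ)`.
`E₄ = 1 + 240 ∑ σ₃(n) qⁿ`, `E₆ = 1 - 504 ∑ σ₅(n) qⁿ`, `σ₃(n), σ₅(n) ≤ n⁶`.
-/

set_option autoImplicit false

open ModularForm EisensteinSeries Complex
open UpperHalfPlane hiding I
open scoped Real ArithmeticFunction.sigma

namespace Fermat.Agent.S12.Height

noncomputable section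

/-- `r(τ) = ‖exp(2πiτ)‖ = exp(-2π Im τ)`. -/
def rr (τ : ℍ) : ℝ := Real.exp (-(2 * π * τ.im))

theorem rr_pos (τ : ℍ) : 0 < rr τ := Real.exp_pos _

/-- LEAF A0. -/
theorem norm_cexp (τ : ℍ) : ‖cexp (2 * π * I * τ)‖ = rr τ := by
  rw [Complex.norm_exp, rr]
  congr 1
  simp [Complex.mul_re, Complex.mul_im]

theorem Series_pow_six_le (n : ℕ) : ((n : ℝ) + 2) ^ 6 ≤ 64 * 12 ^ n := by
  induction n with
  | zero => norm_num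
  | succ n ih =>
    have hn : (0 : ℝ) ≤ n := Nat.cast_nonneg n
    have h1 : ((n + 1 : ℕ) : ℝ) + 2 ≤ 3 / 2 * ((n : ℝ) + 2) := by
      push_cast
      linarith
    have h2 : (((n + 1 : ℕ) : ℝ) + 2) ^ 6 ≤ (3 / 2 * ((n : ℝ) + 2)) ^ 6 :=
      pow_le_pow_left₀ (by positivity) h1 6
    have h3 : (0 : ℝ) ≤ ((n : ℝ) + 2) ^ 6 := by positivity
    rw [mul_pow] at h2
    have h4 : (12 : ℝ) ^ (n + 1) = 12 ^ n * 12 := pow_succ _ _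
    rw [h4]
    have h5 : ((3 : ℝ) / 2) ^ 6 * ((n : ℝ) + 2) ^ 6 ≤ 12 * ((n : ℝ) + 2) ^ 6 :=
      mul_le_mul_of_nonneg_right (by norm_num) h3
    linarith

theorem Series_term_le {r : ℝ} (h0 : 0 ≤ r) (n : ℕ) :
    ((n : ℝ) + 2) ^ 6 * r ^ (n + 2) ≤ 64 * r ^ 2 * (12 * r) ^ n := by
  have h1 : 64 * r ^ 2 * (12 * r) ^ n = 64 * 12 ^ n * r ^ (n + 2) := by
    rw [mul_pow, pow_add]
    ring
  rw [h1]
  exact mul_le_mul_of_nonneg_right (Series_pow_six_le n) (by positivity)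

theorem Series_summable_geom {r : ℝ} (h0 : 0 ≤ r) (h1 : r ≤ 1 / 200) :
    Summable fun n : ℕ => 64 * r ^ 2 * (12 * r) ^ n :=
  (summable_geometric_of_lt_one (by positivity) (by linarith)).mul_left (64 * r ^ 2)

/-- LEAF A1 (real series).  `n⁶ ≤ 64 · 12^(n-2)` for `n ≥ 2` (induction: `((n+1)/n)⁶ ≤ (3/2)⁶ < 12`), geometric series. -/
theorem summable_pow_six {r : ℝ} (h0 : 0 ≤ r) (h1 : r ≤ 1 / 200) :
    Summable fun n : ℕ => ((n : ℝ) + 2) ^ 6 * r ^ (n + 2) :=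
  Summable.of_nonneg_of_le (fun n => by positivity) (Series_term_le h0)
    (Series_summable_geom h0 h1)

/-- LEAF A2. `∑_{n ≥ 2} n⁶ rⁿ ≤ 70 r²`. -/
theorem tsum_pow_six_le {r : ℝ} (h0 : 0 ≤ r) (h1 : r ≤ 1 / 200) :
    ∑' n : ℕ, ((n : ℝ) + 2) ^ 6 * r ^ (n + 2) ≤ 70 * r ^ 2 := by
  refine ((summable_pow_six h0 h1).tsum_le_tsum (Series_term_le h0)
    (Series_summable_geom h0 h1)).trans ?_
  rw [tsum_mul_left, tsum_geometric_of_lt_one (by positivity) (by linarith)]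
  have h2 : (1 - 12 * r)⁻¹ ≤ 70 / 64 := by
    rw [inv_le_comm₀ (by linarith) (by norm_num)]
    norm_num
    linarith
  have h3 : (0 : ℝ) ≤ 64 * r ^ 2 := by positivity
  calc 64 * r ^ 2 * (1 - 12 * r)⁻¹ ≤ 64 * r ^ 2 * (70 / 64) := mul_le_mul_of_nonneg_left h2 h3
    _ = 70 * r ^ 2 := by ring

/-- (aux.) the general shape of the `q`-expansion. -/
theorem E4_eq_aux {k : ℕ} (hk : 3 ≤ k) (hk2 : Even k) (τ : ℍ) :
    E hk τ = 1 - (2 * k / bernoulli k) * (cexp (2 * π * I * τ) +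
      ∑' n : ℕ, (σ (k - 1) (n + 2) : ℂ) * cexp (2 * π * I * τ) ^ (n + 2)) := by
  have hS : Summable fun n : ℕ ↦ (σ (k - 1) (n + 1) : ℂ) * cexp (2 * π * I * τ) ^ (n + 1) :=
    (summable_nat_add_iff 1).mpr (summable_sigma_mul_cexp_pow (by omega) τ)
  have := q_expansion_bernoulli hk hk2 τ
  simp_rw [zpow_natCast] at this
  rw [this, tsum_pnat_eq_tsum_succ (f := fun n ↦ (σ (k - 1) n : ℂ) * cexp (2 * π * I * τ) ^ n),
    hS.tsum_eq_zero_add]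
  simp only [zero_add, ArithmeticFunction.sigma_one, Nat.cast_one, one_mul, pow_one]

/-- LEAF A3. `E₄ = 1 + 240 (q + ∑_{n ≥ 2} σ₃(n) qⁿ)` (from `EisensteinSeries.q_expansion_bernoulli`, `bernoulli 4 = -1/30`,
`tsum_pnat_eq_tsum_succ`, `Summable.tsum_eq_zero_add`, `EisensteinSeries.summable_sigma_mul_cexp_pow`). -/
theorem E4_eq (τ : ℍ) :
    E₄ τ = 1 + 240 * (cexp (2 * π * I * τ) +
      ∑' n : ℕ, (σ 3 (n + 2) : ℂ) * cexp (2 * π * I * τ) ^ (n + 2)) := by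
  have h := E4_eq_aux (k := 4) (by norm_num) ⟨2, rfl⟩ τ
  have hb : bernoulli 4 = -1 / 30 := by
    rw [bernoulli_eq_bernoulli'_of_ne_one (by norm_num), bernoulli'_four]
  rw [hb] at h
  rw [h]
  push_cast
  ring

/-- LEAF A4. `E₆ = 1 - 504 (q + ∑_{n ≥ 2} σ₅(n) qⁿ)` (`bernoulli 6 = 1/42`). -/
theorem E6_eq (τ : ℍ) :
    E₆ τ = 1 - 504 * (cexp (2 * π * I * τ) +
      ∑' n : ℕ, (σ 5 (n + 2) : ℂ) * cexp (2 * π * I * τ) ^ (n + 2)) := by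
  have h := E4_eq_aux (k := 6) (by norm_num) ⟨3, rfl⟩ τ
  have hb : bernoulli 6 = 1 / 42 := by decide +kernel
  rw [hb] at h
  rw [h]
  push_cast
  ring

/-- LEAF A5. the tails (`k = 3, 5`): `‖∑_{n ≥ 2} σ_k(n) qⁿ‖ ≤ 70 r²`
(`ArithmeticFunction.sigma_le_pow_succ`, `norm_tsum_le_tsum_norm`, `tsum_pow_six_le`). -/
theorem norm_tail_le (k : ℕ) (hk : k ≤ 5) (τ : ℍ) (h : rr τ ≤ 1 / 200) :
    Summable (fun n : ℕ => (σ k (n + 2) : ℂ) * cexp (2 * π * I * τ) ^ (n + 2)) ∧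
    ‖∑' n : ℕ, (σ k (n + 2) : ℂ) * cexp (2 * π * I * τ) ^ (n + 2)‖ ≤ 70 * rr τ ^ 2 := by
  have h0 : 0 ≤ rr τ := (rr_pos τ).le
  have hs := summable_pow_six h0 h
  have hb : ∀ n : ℕ, ‖(σ k (n + 2) : ℂ) * cexp (2 * π * I * τ) ^ (n + 2)‖
      ≤ ((n : ℝ) + 2) ^ 6 * rr τ ^ (n + 2) := by
    intro n
    rw [norm_mul, norm_pow, norm_cexp, Complex.norm_natCast]
    refine mul_le_mul_of_nonneg_right ?_ (pow_nonneg h0 _)
    have h1 : σ k (n + 2) ≤ (n + 2) ^ (k + 1) := ArithmeticFunction.sigma_le_pow_succ k (n + 2)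
    have h2 : (n + 2) ^ (k + 1) ≤ (n + 2) ^ 6 := Nat.pow_le_pow_right (by omega) (by omega)
    have h3 : ((σ k (n + 2) : ℕ) : ℝ) ≤ (((n + 2) ^ 6 : ℕ) : ℝ) := by
      exact_mod_cast h1.trans h2
    push_cast at h3
    exact h3
  have hsn : Summable fun n : ℕ => ‖(σ k (n + 2) : ℂ) * cexp (2 * π * I * τ) ^ (n + 2)‖ :=
    Summable.of_nonneg_of_le (fun _ => norm_nonneg _) hb hs
  refine ⟨hsn.of_norm, ?_⟩
  calc ‖∑' n : ℕ, (σ k (n + 2) : ℂ) * cexp (2 * π * I * τ) ^ (n + 2)‖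
      ≤ ∑' n : ℕ, ‖(σ k (n + 2) : ℂ) * cexp (2 * π * I * τ) ^ (n + 2)‖ :=
        norm_tsum_le_tsum_norm hsn
    _ ≤ ∑' n : ℕ, ((n : ℝ) + 2) ^ 6 * rr τ ^ (n + 2) := hsn.tsum_le_tsum hb hs
    _ ≤ 70 * rr τ ^ 2 := tsum_pow_six_le h0 h

/-- `‖E₄ - 1‖ ≤ 480 r`. -/
theorem norm_E4_sub_one_le (τ : ℍ) (h : rr τ ≤ 1 / 200) : ‖E₄ τ - 1‖ ≤ 480 * rr τ := by
  have h0 := rr_pos τ
  have ht := (norm_tail_le 3 (by norm_num) τ h).2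
  rw [E4_eq, add_sub_cancel_left, norm_mul]
  have h240 : ‖(240 : ℂ)‖ = 240 := by simp
  rw [h240]
  have := norm_add_le (cexp (2 * π * I * τ))
    (∑' n : ℕ, (σ 3 (n + 2) : ℂ) * cexp (2 * π * I * τ) ^ (n + 2))
  rw [norm_cexp] at this
  nlinarith

/-- `‖E₆ - 1‖ ≤ 1008 r`. -/
theorem norm_E6_sub_one_le (τ : ℍ) (h : rr τ ≤ 1 / 200) : ‖E₆ τ - 1‖ ≤ 1008 * rr τ := by
  have h0 := rr_pos τ
  have ht := (norm_tail_le 5 (by norm_num) τ h).2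
  rw [E6_eq, sub_sub_cancel_left, norm_neg, norm_mul]
  have h504 : ‖(504 : ℂ)‖ = 504 := by simp
  rw [h504]
  have := norm_add_le (cexp (2 * π * I * τ))
    (∑' n : ℕ, (σ 5 (n + 2) : ℂ) * cexp (2 * π * I * τ) ^ (n + 2))
  rw [norm_cexp] at this
  nlinarith

/-- `21 E₄ + 10 E₆ = 31 + 5040 ∑_{n ≥ 2} (σ₃ - σ₅)(n) qⁿ`, so `‖21 E₄ + 10 E₆‖ ≥ 13`. -/
theorem norm_lin_ge (τ : ℍ) (h : rr τ ≤ 1 / 200) : 13 ≤ ‖21 * E₄ τ + 10 * E₆ τ‖ := by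
  have h0 := rr_pos τ
  have h3 := (norm_tail_le 3 (by norm_num) τ h).2
  have h5 := (norm_tail_le 5 (by norm_num) τ h).2
  set S3 := ∑' n : ℕ, (σ 3 (n + 2) : ℂ) * cexp (2 * π * I * τ) ^ (n + 2)
  set S5 := ∑' n : ℕ, (σ 5 (n + 2) : ℂ) * cexp (2 * π * I * τ) ^ (n + 2)
  have e : 21 * E₄ τ + 10 * E₆ τ = 31 - (5040 * S5 - 5040 * S3) := by
    rw [E4_eq, E6_eq]; ring
  rw [e]
  have h1 : ‖(31 : ℂ)‖ - ‖5040 * S5 - 5040 * S3‖ ≤ ‖(31 : ℂ) - (5040 * S5 - 5040 * S3)‖ :=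
    norm_sub_norm_le _ _
  have h2 : ‖5040 * S5 - 5040 * S3‖ ≤ 5040 * ‖S5‖ + 5040 * ‖S3‖ := by
    refine (norm_sub_le _ _).trans ?_
    rw [norm_mul, norm_mul]
    have : ‖(5040 : ℂ)‖ = 5040 := by simp
    rw [this]
  have h31 : ‖(31 : ℂ)‖ = 31 := by simp
  rw [h31] at h1
  have hr2 : rr τ ^ 2 ≤ 1 / 40000 := by nlinarith
  nlinarith

end

end Fermat.Agent.S12.Height
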